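import Mathlib.Analysis.Analytic.Order
import Mathlib.Analysis.Calculus.IteratedDeriv.Lemmas
import Mathlib.Analysis.Complex.CauchyIntegral
import Mathlib.RingTheory.LaurentSeries
import Mathlib.RingTheory.PowerSeries.Derivative

/-!
# Taylor germs as ring homomorphisms
-/

set_option autoImplicit false

noncomputable section

namespace Fermat.Agent.RED.RamBound

open PowerSeries Filter Topology

variable (z₀ : ℂ)

/-- Functions analytic at `z₀`. -/
def analyticFns : Subalgebra ℂ (ℂ → ℂ) where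
  carrier := {f | AnalyticAt ℂ f z₀}
  mul_mem' := fun hf hg => AnalyticAt.mul hf hg
  one_mem' := analyticAt_const
  add_mem' := fun hf hg => AnalyticAt.add hf hg
  zero_mem' := analyticAt_const
  algebraMap_mem' := fun _ => analyticAt_const

theorem mem_analyticFns_iff {f : ℂ → ℂ} : f ∈ analyticFns z₀ ↔ AnalyticAt ℂ f z₀ := Iff.rfl

/-- The Taylor series at `z₀`. -/
def taylorPS (f : ℂ → ℂ) : ℂ⟦X⟧ :=
  PowerSeries.mk fun n => iteratedDeriv n f z₀ / n.factorial

@[simp]
theorem coeff_taylorPS (f : ℂ → ℂ) (n : ℕ) :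
    coeff n (taylorPS z₀ f) = iteratedDeriv n f z₀ / n.factorial :=
  coeff_mk _ _

theorem constantCoeff_taylorPS (f : ℂ → ℂ) : constantCoeff (taylorPS z₀ f) = f z₀ := by
  rw [← coeff_zero_eq_constantCoeff_apply, coeff_taylorPS]
  simp

theorem derivative_taylorPS (f : ℂ → ℂ) :
    d⁄dX ℂ (taylorPS z₀ f) = taylorPS z₀ (deriv f) := by
  ext n
  rw [coeff_derivative, coeff_taylorPS, coeff_taylorPS, iteratedDeriv_succ', Nat.factorial_succ]
  push_cast
  field_simp

theorem taylorPS_congr {f g : ℂ → ℂ} (h : f =ᶠ[𝓝 z₀] g) : taylorPS z₀ f = taylorPS z₀ g := by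
  ext n
  simp only [coeff_taylorPS, h.iteratedDeriv_eq n]

theorem taylorPS_add {f g : ℂ → ℂ} (hf : AnalyticAt ℂ f z₀) (hg : AnalyticAt ℂ g z₀) :
    taylorPS z₀ (f + g) = taylorPS z₀ f + taylorPS z₀ g := by
  ext n
  simp only [coeff_taylorPS, map_add, iteratedDeriv_add hf.contDiffAt hg.contDiffAt]
  ring

theorem taylorPS_mul {f g : ℂ → ℂ} (hf : AnalyticAt ℂ f z₀) (hg : AnalyticAt ℂ g z₀) :
    taylorPS z₀ (f * g) = taylorPS z₀ f * taylorPS z₀ g := by
  ext n
  induction n generalizing f g with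
  | zero => simp [constantCoeff_taylorPS]
  | succ n ih =>
    have hd : deriv (f * g) =ᶠ[𝓝 z₀] deriv f * g + f * deriv g := by
      filter_upwards [hf.eventually_analyticAt, hg.eventually_analyticAt] with z hfz hgz
      simp [deriv_mul hfz.differentiableAt hgz.differentiableAt]
    have h1 : coeff n (d⁄dX ℂ (taylorPS z₀ (f * g))) =
        coeff n (d⁄dX ℂ (taylorPS z₀ f * taylorPS z₀ g)) := by
      rw [derivative_taylorPS, taylorPS_congr z₀ hd,
        taylorPS_add z₀ (hf.deriv.mul hg) (hf.mul hg.deriv), map_add, ih hf.deriv hg,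
        ih hf hg.deriv, ← derivative_taylorPS, ← derivative_taylorPS,
        Derivation.leibniz, map_add, smul_eq_mul, smul_eq_mul]
      rw [mul_comm (taylorPS z₀ g)]
      ring
    rw [coeff_derivative, coeff_derivative] at h1
    exact mul_right_cancel₀ (Nat.cast_add_one_ne_zero n) h1

theorem taylorPS_const (c : ℂ) : taylorPS z₀ (fun _ => c) = PowerSeries.C c := by
  ext n
  rcases n with _ | n
  · simp
  · simp [iteratedDeriv_const]

theorem order_taylorPS {f : ℂ → ℂ} (hf : AnalyticAt ℂ f z₀) {m : ℕ}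
    (hm : analyticOrderAt f z₀ = m) :
    (taylorPS z₀ f).order = m := by
  obtain ⟨h1, h2⟩ := (analyticOrderAt_eq_nat_iff_iteratedDeriv_eq_zero hf).mp hm
  rw [PowerSeries.order_eq_nat]
  exact ⟨by simpa [Nat.factorial_ne_zero] using h2, fun i hi => by simp [h1 i hi]⟩

/-- The germ map into Laurent series. -/
def germ : analyticFns z₀ →ₐ[ℂ] LaurentSeries ℂ where
  toFun f := HahnSeries.ofPowerSeries ℤ ℂ (taylorPS z₀ f.1)
  map_one' := by
    rw [OneMemClass.coe_one, show (1 : ℂ → ℂ) = fun _ => (1 : ℂ) from rfl, taylorPS_const,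
      map_one, map_one]
  map_mul' f g := by rw [MulMemClass.coe_mul, taylorPS_mul z₀ f.2 g.2, map_mul]
  map_zero' := by
    rw [ZeroMemClass.coe_zero, show (0 : ℂ → ℂ) = fun _ => (0 : ℂ) from rfl, taylorPS_const,
      map_zero, map_zero]
  map_add' f g := by rw [AddMemClass.coe_add, taylorPS_add z₀ f.2 g.2, map_add]
  commutes' c := by
    show HahnSeries.ofPowerSeries ℤ ℂ (taylorPS z₀ (fun _ => c)) = _
    rw [taylorPS_const, HahnSeries.ofPowerSeries_C]
    simp [HahnSeries.algebraMap_apply']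

theorem germ_apply (f : analyticFns z₀) :
    germ z₀ f = HahnSeries.ofPowerSeries ℤ ℂ (taylorPS z₀ f.1) := rfl

/-- The order of a germ is the vanishing order. -/
theorem order_germ (f : analyticFns z₀) {m : ℕ} (hm : analyticOrderAt f.1 z₀ = m) :
    germ z₀ f ≠ 0 ∧ (germ z₀ f).order = m := by
  obtain ⟨h1, h2⟩ := (PowerSeries.order_eq_nat).mp (order_taylorPS z₀ f.2 hm)
  have hc : (germ z₀ f).coeff (m : ℤ) ≠ 0 := by
    rwa [germ_apply, HahnSeries.ofPowerSeries_apply_coeff]
  refine ⟨fun h => hc (by rw [h, HahnSeries.coeff_zero]), le_antisymm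
    (HahnSeries.order_le_of_coeff_ne_zero hc) ?_⟩
  by_contra hlt
  push Not at hlt
  have hne : germ z₀ f ≠ 0 := fun h => hc (by rw [h, HahnSeries.coeff_zero])
  apply mt HahnSeries.coeff_order_eq_zero.mp hne
  rcases lt_or_ge (germ z₀ f).order 0 with hneg | hnn
  · rw [germ_apply, HahnSeries.ofPowerSeries_apply, HahnSeries.embDomain_of_notMem_range]
    rintro ⟨k, hk⟩
    have : (k : ℤ) = (germ z₀ f).order := hk
    omega
  · obtain ⟨k, hk⟩ := Int.eq_ofNat_of_zero_le hnn
    rw [hk, germ_apply, HahnSeries.ofPowerSeries_apply_coeff]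
    exact h2 k (by omega)

end Fermat.Agent.RED.RamBound
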