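import Fermat.Agent.RED.RamBound.Relation
import Fermat.Agent.RED.RamBound.Germ
import Fermat.Agent.MF.KleinJ
import Fermat.Agent.MF.CuspSlash
import Fermat.Prelude.Def_ModularCurve_X0ModL

/-!
# Parametrisations splitting all modular relations: germs at points, expansions at infinity
-/

set_option autoImplicit false

noncomputable section

open UpperHalfPlane ModularForm EisensteinSeries Polynomial CongruenceSubgroup Function
open scoped MatrixGroups Manifold

namespace Fermat.Agent.RED.RamBound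

open Fermat.Agent.MF Fermat.Agent.MF.HolCrit

theorem mdifferentiable_slashQ {N : ℕ} [NeZero N] {k : ℤ} (f : MForm N k) (q : Cosets N) :
    MDiff (slashQ f q) := by
  obtain ⟨γ, hγ⟩ := exists_slashQ_eq f q
  rw [hγ]
  exact (ModularFormClass.holo f).slash k _

/-! ### Germs at a point -/

/-- `f ↦ f ∘ ofComplex`. -/
def toPlane : (ℍ → ℂ) →ₐ[ℂ] (ℂ → ℂ) where
  toFun f := f ∘ ofComplex
  map_one' := rfl
  map_mul' _ _ := rfl
  map_zero' := rfl
  map_add' _ _ := rfl
  commutes' _ := rfl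

theorem toPlane_apply (f : ℍ → ℂ) : toPlane f = f ∘ ofComplex := rfl

/-- Functions analytic at `τ`. -/
def pointFns (τ : ℍ) : Subalgebra ℂ (ℍ → ℂ) := (analyticFns (τ : ℂ)).comap toPlane

theorem mem_pointFns_of_mdiff {F : ℍ → ℂ} (hF : MDiff F) (τ : ℍ) : F ∈ pointFns τ :=
  mdiff_analyticAt hF τ

/-- The germ at `τ`. -/
def pointGerm (τ : ℍ) : pointFns τ →ₐ[ℂ] LaurentSeries ℂ :=
  (germ (τ : ℂ)).comp ((toPlane.comp (pointFns τ).val).codRestrict _ fun x => x.2)

theorem order_pointGerm {τ : ℍ} {F : ℍ → ℂ} (hF : F ∈ pointFns τ) {m : ℕ}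
    (hm : analyticOrderAt (F ∘ ofComplex) (τ : ℂ) = m) :
    pointGerm τ ⟨F, hF⟩ ≠ 0 ∧ (pointGerm τ ⟨F, hF⟩).order = m :=
  order_germ (τ : ℂ) ⟨F ∘ ofComplex, hF⟩ hm

theorem order_pointGerm_of_ne_zero {τ : ℍ} {F : ℍ → ℂ} (hF : F ∈ pointFns τ) (h : F τ ≠ 0) :
    pointGerm τ ⟨F, hF⟩ ≠ 0 ∧ (pointGerm τ ⟨F, hF⟩).order = 0 := by
  refine order_pointGerm hF (m := 0) ?_
  exact (AnalyticAt.analyticOrderAt_eq_zero (hF : AnalyticAt ℂ (F ∘ ofComplex) (τ : ℂ))).mpr
    (by show F (ofComplex (τ : ℂ)) ≠ 0; simpa using h)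

/-- A series of order `deg` at every value, splitting all relations. -/
theorem exists_point_param (a : ℂ) :
    ∃ X₀ : LaurentSeries ℂ, X₀.order = (if a = 0 then 3 else if a = 1728 then 2 else 1 : ℕ) ∧
      ∀ (d : ℕ) [NeZero d],
        relAt d (X₀ + algebraMap ℂ (LaurentSeries ℂ) a) ≠ 0 ∧
          (relAt d (X₀ + algebraMap ℂ (LaurentSeries ℂ) a)).Splits := by
  obtain ⟨τ, hτ⟩ := kleinJ_surjective a
  have hn : (numForm : ℍ → ℂ) ∈ pointFns τ :=
    mem_pointFns_of_mdiff (ModularFormClass.holo numForm) τ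
  have hd : (denForm : ℍ → ℂ) ∈ pointFns τ :=
    mem_pointFns_of_mdiff (ModularFormClass.holo denForm) τ
  obtain ⟨hd0, hdord⟩ := order_pointGerm_of_ne_zero hd (discriminant_ne_zero τ)
  set Jn := pointGerm τ ⟨_, hn⟩
  set Jd := pointGerm τ ⟨_, hd⟩
  refine ⟨Jn / Jd - algebraMap ℂ (LaurentSeries ℂ) a, ?_, fun d _ => ?_⟩
  · let z : pointFns τ := ⟨_, hn⟩ - a • ⟨_, hd⟩
    have hz : ((z : ℍ → ℂ) ∘ ofComplex) =
        (fun w => (kleinJ ∘ ofComplex) w - kleinJ τ) * ((denForm : ℍ → ℂ) ∘ ofComplex) := by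
      funext w
      show numForm (ofComplex w) - a * denForm (ofComplex w) = _
      rw [← kleinJ_mul_denForm, hτ, Pi.mul_apply, comp_apply, comp_apply, sub_mul]
    have hord : analyticOrderAt ((z : ℍ → ℂ) ∘ ofComplex) (τ : ℂ) = (kleinJDegree τ : ℕ∞) := by
      have hA := mdiff_analyticAt kleinJ_mdifferentiable τ
      have hD := mdiff_analyticAt (ModularFormClass.holo denForm) τ
      rw [hz, analyticOrderAt_mul (hA.fun_sub analyticAt_const) hD, analyticOrderAt_kleinJ_sub,
        hD.analyticOrderAt_eq_zero.mpr (by simpa using! discriminant_ne_zero τ), add_zero]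
    obtain ⟨hz0, hzord⟩ := order_pointGerm z.2 hord
    have heq : Jn / Jd - algebraMap ℂ (LaurentSeries ℂ) a = pointGerm τ z / Jd := by
      simp only [z, map_sub, Algebra.smul_def, map_mul, AlgHom.commutes]
      field_simp
      ring
    have hord' : (pointGerm τ z / Jd).order + Jd.order = (kleinJDegree τ : ℤ) := by
      rw [← HahnSeries.order_mul (div_ne_zero hz0 hd0) hd0, div_mul_cancel₀ _ hd0]
      exact hzord
    rw [heq]
    rw [hdord, add_zero] at hord'
    rw [hord', kleinJDegree, hτ]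
  · rw [sub_add_cancel]
    exact relAt_ne_zero_and_splits d (pointGerm τ) hn hd hd0
      (fun q => mem_pointFns_of_mdiff (mdifferentiable_slashQ _ q) τ)
      (fun q => mem_pointFns_of_mdiff (mdifferentiable_slashQ _ q) τ)
      (fun q => (order_pointGerm_of_ne_zero _ (slashQ_conjDen_ne_zero d q τ)).1)

/-! ### Expansions at infinity in `q ^ (1/M)` -/

variable (M : ℕ) [NeZero M]

/-- `f ↦ (τ ↦ f (M τ))`. -/
def toScaled : (ℍ → ℂ) →ₐ[ℂ] (ℍ → ℂ) where
  toFun f := f ∘ scaleH M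
  map_one' := rfl
  map_mul' _ _ := rfl
  map_zero' := rfl
  map_add' _ _ := rfl
  commutes' _ := rfl

/-- Functions with an expansion in `q ^ (1/M)`. -/
def cuspFns : Subalgebra ℂ (ℍ → ℂ) := qFunctions.comap (toScaled M)

/-- The expansion in `q ^ (1/M)`. -/
def cuspExp : cuspFns M →ₐ[ℂ] LaurentSeries ℂ :=
  qLHom.comp (((toScaled M).comp (cuspFns M).val).codRestrict _ fun x => x.2)

omit [NeZero M] in
theorem cuspExp_apply {F : ℍ → ℂ} (hF : F ∈ cuspFns M) :
    cuspExp M ⟨F, hF⟩ = qL (F ∘ scaleH M) := rfl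

theorem mem_cuspFns_of (g : ℍ → ℂ) (hper : Periodic (g ∘ ofComplex) (M : ℂ)) (hhol : MDiff g)
    (hbdd : IsBoundedAtImInfty g) : g ∈ cuspFns M := by
  refine ⟨fun w => ?_, ?_, ?_⟩
  · by_cases hw : 0 < w.im
    · have h1 : 0 < (w + 1).im := by simpa using hw
      have hd : (0 : ℝ) < M := by exact_mod_cast NeZero.pos M
      have h2 : 0 < ((M : ℂ) * w).im := by simpa [Complex.mul_im] using mul_pos hd hw
      have key := hper ((M : ℂ) * w)
      simp only [comp_apply] at key
      rw [ofComplex_apply_of_im_pos (by simpa using h2), ofComplex_apply_of_im_pos h2] at key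
      show g (scaleH M (ofComplex (w + 1))) = g (scaleH M (ofComplex w))
      rw [ofComplex_apply_of_im_pos h1, ofComplex_apply_of_im_pos hw]
      refine Eq.trans (congrArg g ?_) (key.trans (congrArg g ?_)) <;>
        · ext; simp [coe_scaleH, mul_add]
    · have h1 : ¬ 0 < (w + 1).im := by simpa using hw
      show g (scaleH M (ofComplex (w + 1))) = g (scaleH M (ofComplex w))
      rw [ofComplex_apply_of_im_nonpos (not_lt.mp hw), ofComplex_apply_of_im_nonpos (not_lt.mp h1)]
  · have h0 : MDiff (g ∣[(0 : ℤ)] heckeDiagMatrix M) := hhol.slash 0 _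
    show MDiff (g ∘ scaleH M)
    rw [comp_scaleH_eq M 0]
    exact h0.const_smul _
  · exact hbdd.comp_tendsto (tendsto_smul_atImInfty (g := heckeDiagMatrix M)
      (by simp [val_heckeDiagMatrix (NeZero.ne M)]))

theorem slashQ_mem_cuspFns {d : ℕ} [NeZero d] (h : d ∣ M) {k : ℤ} (f : MForm d k)
    (q : Cosets d) : slashQ f q ∈ cuspFns M := by
  obtain ⟨γ, hγ⟩ := exists_slashQ_eq f q
  rw [hγ]
  obtain ⟨c, hc⟩ := h
  refine mem_cuspFns_of M _ ?_ ((ModularFormClass.holo f).slash k _)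
    (ModularFormClass.bdd_at_infty_slash f γ)
  have := (periodic_slash_gamma0 f γ).nat_mul c
  rw [hc, Nat.cast_mul, mul_comm]
  simpa using this

theorem order_jC : jC.order = -1 := by
  have h1 : jC.coeff (-1) ≠ 0 := by rw [ModularCurve.coeff_jqModC_neg_one]; exact one_ne_zero
  refine le_antisymm (HahnSeries.order_le_of_coeff_ne_zero h1) ?_
  by_contra hlt
  push Not at hlt
  exact mt HahnSeries.coeff_order_eq_zero.mp (fun h => h1 ((congrArg (fun u : LaurentSeries ℂ => u.coeff (-1)) h).trans HahnSeries.coeff_zero))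
    (ModularCurve.coeff_jqModC_of_lt ℂ hlt)

theorem order_qExpand {R : Type*} [CommRing R] (r : ℕ) [NeZero r] {s : LaurentSeries R}
    (hs : s ≠ 0) : (ModularCurve.qExpand R r s).order = (r : ℤ) * s.order := by
  have hne : ModularCurve.qExpand R r s ≠ 0 :=
    (map_ne_zero_iff _ (ModularCurve.qExpand_injective r)).mpr hs
  have hc : (ModularCurve.qExpand R r s).coeff ((r : ℤ) * s.order) ≠ 0 := by
    rw [ModularCurve.qExpand_coeff_mul]
    exact mt HahnSeries.coeff_order_eq_zero.mp hs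
  refine le_antisymm (HahnSeries.order_le_of_coeff_ne_zero hc) ?_
  by_cases hd : (r : ℤ) ∣ (ModularCurve.qExpand R r s).order
  · obtain ⟨k, hk⟩ := hd
    have hk' := mt HahnSeries.coeff_order_eq_zero.mp hne
    rw [hk, ModularCurve.qExpand_coeff_mul] at hk'
    rw [hk]
    exact mul_le_mul_of_nonneg_left (HahnSeries.order_le_of_coeff_ne_zero hk')
      (Int.natCast_nonneg r)
  · exact absurd (ModularCurve.qExpand_coeff_of_not_dvd r s hd)
      (mt HahnSeries.coeff_order_eq_zero.mp hne)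

/-- A series of order `M` for `1/j`, splitting all relations of level dividing `M`. -/
theorem exists_cusp_param :
    ∃ X₀ : LaurentSeries ℂ, X₀.order = (M : ℤ) ∧
      ∀ (d : ℕ) [NeZero d], d ∣ M → relAt d X₀⁻¹ ≠ 0 ∧ (relAt d X₀⁻¹).Splits := by
  have hn : (numForm : ℍ → ℂ) ∈ cuspFns M :=
    mem_qFunctions_comp_scaleH (coe_levelOne_mem_qFunctions numForm) M
  have hd : (denForm : ℍ → ℂ) ∈ cuspFns M :=
    mem_qFunctions_comp_scaleH (coe_levelOne_mem_qFunctions denForm) M
  have hj : jC = qL (numForm : ℍ → ℂ) / qL (denForm : ℍ → ℂ) := by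
    rw [show (numForm : ℍ → ℂ) = (⇑E₄) ^ 3 from funext numForm_apply]
    exact jqModC_eq_div
  have hd0 : cuspExp M ⟨_, hd⟩ ≠ 0 := by
    rw [cuspExp_apply, qL_comp_scaleH (coe_levelOne_mem_qFunctions denForm)]
    exact (map_ne_zero_iff _ (ModularCurve.qExpand_injective M)).mpr qL_discriminant_ne_zero
  have hJ : cuspExp M ⟨_, hn⟩ / cuspExp M ⟨_, hd⟩ = ModularCurve.qExpand ℂ M jC := by
    rw [cuspExp_apply, cuspExp_apply, qL_comp_scaleH (coe_levelOne_mem_qFunctions numForm),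
      qL_comp_scaleH (coe_levelOne_mem_qFunctions denForm), hj, map_div₀]
  have hjne : jC ≠ 0 := ModularCurve.jqModC_ne_zero_of_nontrivial ℂ
  have hne : ModularCurve.qExpand ℂ M jC ≠ 0 :=
    (map_ne_zero_iff _ (ModularCurve.qExpand_injective M)).mpr hjne
  refine ⟨(ModularCurve.qExpand ℂ M jC)⁻¹, ?_, fun d _ hdM => ?_⟩
  · have h := HahnSeries.order_mul (inv_ne_zero hne) hne
    rw [inv_mul_cancel₀ hne, HahnSeries.order_one, order_qExpand M hjne, order_jC] at h
    omega
  · rw [inv_inv, ← hJ]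
    refine relAt_ne_zero_and_splits d (cuspExp M) hn hd hd0
      (fun q => slashQ_mem_cuspFns M hdM _ q) (fun q => slashQ_mem_cuspFns M hdM _ q) fun q => ?_
    intro h0
    rw [cuspExp_apply] at h0
    have h1 := congrFun ((qL_eq_zero_iff (slashQ_mem_cuspFns M hdM (conjDen d) q)).mp h0)
      UpperHalfPlane.I
    exact slashQ_conjDen_ne_zero d q _ h1

end Fermat.Agent.RED.RamBound
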