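import Fermat.Agent.RED.RamBound.Abstract
import Fermat.Agent.RED.RamBound.Instances
import Fermat.Prelude.Def_ModularCurve_ArithmeticGalois
import Fermat.Agent.HK.Degen
import Mathlib.LinearAlgebra.Basis.VectorSpace

/-!
# Ramification of `X₀(M)` over the `j`-line in characteristic zero

At every place of `F_Q̄(M)`: `ord (j - a)` divides `3`, `2`, `1` for `a = 0`, `1728`, otherwise, and
`ord (1/j)` divides `M`.
-/

set_option autoImplicit false

noncomputable section

open Polynomial ModularCurve AlgebraicCurve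

namespace Fermat.Agent.RED.RamBound

local notation "Qbar" => AlgebraicClosure ℚ

/-- A fixed embedding `ℚ̄ → ℂ`. -/
def toC : Qbar →+* ℂ :=
  haveI : Algebra.IsAlgebraic ℚ Qbar := AlgebraicClosure.isAlgebraic ℚ
  (IsAlgClosed.lift : Qbar →ₐ[ℚ] ℂ).toRingHom

/-- The expansion of `j(dτ)` over `ℚ̄`. -/
abbrev jdK (d : ℕ) [NeZero d] : LaurentSeries Qbar := coeffEmb Qbar (qExpand ℚ d jq)

theorem coeffMap_jdK (d : ℕ) [NeZero d] : coeffMap toC (jdK d) = Fermat.Agent.MF.jdC d := by
  rw [jdK, coeffEmb, coeffMap_coeffMap,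
    coeffMap_congr (g := algebraMap ℚ ℂ) (RingHom.ext_rat _ _) _, ModularCurve.coeffMap_qExpand]
  congr 1
  exact Fermat.Agent.MF.coeffEmb_jq

theorem coeffMap_jK : coeffMap toC (coeffEmb Qbar jq) = Fermat.Agent.MF.jC := by
  rw [coeffEmb, coeffMap_coeffMap,
    coeffMap_congr (g := algebraMap ℚ ℂ) (RingHom.ext_rat _ _) _]
  exact Fermat.Agent.MF.coeffEmb_jq

variable (M : ℕ)

/-- `j` in `F_Q̄(M)`. -/
def jPlace : modularFunctionFieldBar M :=
  ⟨coeffEmb Qbar jq,
    coeffEmb_mem_laurentBaseChange Qbar (by simpa [qExpand_one_apply] using jqd_mem_full M (one_dvd M))⟩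

variable [NeZero M]

/-- The generators `j(dτ)`, `d ∣ M`. -/
def gens : Set (modularFunctionFieldBar M) :=
  {y | ∃ (d : ℕ) (_ : NeZero d), d ∣ M ∧ (y : LaurentSeries Qbar) = jdK d}

theorem gens_finite : (gens M).Finite := by
  have h : ((fun y : modularFunctionFieldBar M => (y : LaurentSeries Qbar)) '' gens M).Finite := by
    refine (M.divisors.finite_toSet.image fun d =>
      if h : d = 0 then 0 else haveI : NeZero d := ⟨h⟩; jdK d).subset ?_
    rintro _ ⟨y, ⟨d, hne, hd, hy⟩, rfl⟩
    refine ⟨d, Nat.mem_divisors.mpr ⟨hd, NeZero.ne M⟩, ?_⟩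
    show dite _ _ _ = _
    rw [dif_neg hne.ne]
    exact hy.symm
  exact h.of_finite_image Subtype.val_injective.injOn

omit [NeZero M] in
theorem adjoin_gens : IntermediateField.adjoin Qbar (gens M) = ⊤ := by
  apply IntermediateField.lift_injective
  rw [IntermediateField.lift_adjoin, IntermediateField.lift_top]
  show _ = laurentBaseChange Qbar (modularFunctionFieldFull M)
  refine Eq.trans ?_ (Fermat.Agent.HK.Corr.modField_eq_adjoin Qbar M).symm
  congr 1
  ext z
  constructor
  · rintro ⟨y, ⟨d, hne, hd, hy⟩, rfl⟩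
    exact ⟨_, mem_divisorExpansions M hd, hy.symm⟩
  · rintro ⟨_, ⟨d, hne, hd, rfl⟩, rfl⟩
    exact ⟨⟨_, coeffEmb_mem_laurentBaseChange Qbar (jqd_mem_full M hd)⟩, ⟨d, hne, hd, rfl⟩, rfl⟩

/-- The complex relation decomposes into relations over `ℚ̄`. -/
theorem exists_decomposition (d : ℕ) [NeZero d] :
    ∃ (S : Finset ℂ) (c : ℂ → ℂ) (P : ℕ → ℂ → Qbar[X]),
      (∀ i r, (P i r).natDegree ≤ relDeg d) ∧
      (∀ i, i ≤ relDeg d → relPoly d i = ∑ r ∈ S, C (c r) * (P i r).map toC) ∧
      ∀ r ∈ S, ∑ i ∈ Finset.range (relDeg d + 1),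
        aeval (coeffEmb Qbar jq) (P i r) * jdK d ^ i = 0 := by
  classical
  let : Algebra Qbar ℂ := toC.toAlgebra
  let b := Module.Basis.ofVectorSpace Qbar ℂ
  let n := relDeg d
  let S₀ : Finset (Module.Basis.ofVectorSpaceIndex Qbar ℂ) :=
    (Finset.range (n + 1) ×ˢ Finset.range (n + 1)).biUnion fun ik =>
      (b.repr ((relPoly d ik.1).coeff ik.2)).support
  let P : ℕ → ℂ → Qbar[X] := fun i r =>
    if hr : r ∈ Module.Basis.ofVectorSpaceIndex Qbar ℂ then
      ∑ k ∈ Finset.range (n + 1), C (b.repr ((relPoly d i).coeff k) ⟨r, hr⟩) * X ^ k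
    else 0
  refine ⟨S₀.map (Function.Embedding.subtype _), id, P, fun i r => ?_, fun i hi => ?_,
    fun r hr => ?_⟩
  · simp only [P]
    split_ifs
    · refine natDegree_sum_le_of_forall_le _ _ fun k hk => ?_
      refine (natDegree_C_mul_X_pow_le _ _).trans ?_
      exact Nat.lt_succ_iff.mp (Finset.mem_range.mp hk)
    · simp
  · rw [Finset.sum_map]
    conv_lhs => rw [(relPoly d i).as_sum_range_C_mul_X_pow'
      (Nat.lt_succ_of_le (natDegree_relPoly_le d i))]
    simp only [Function.Embedding.coe_subtype, id, P, Subtype.coe_prop, dif_pos, Subtype.coe_eta,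
      Polynomial.map_sum, Polynomial.map_mul, map_C, Polynomial.map_pow, map_X, Finset.mul_sum]
    rw [Finset.sum_comm]
    refine Finset.sum_congr rfl fun k hk => ?_
    rw [Finset.sum_congr rfl fun r _ => by rw [← mul_assoc, ← map_mul], ← Finset.sum_mul,
      ← map_sum]
    congr 2
    have hsub : (b.repr ((relPoly d i).coeff k)).support ⊆ S₀ :=
      fun r hr => Finset.mem_biUnion.mpr ⟨(i, k),
        Finset.mem_product.mpr ⟨Finset.mem_range.mpr (Nat.lt_succ_of_le hi), hk⟩, hr⟩
    conv_lhs => rw [← b.linearCombination_repr ((relPoly d i).coeff k),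
      Finsupp.linearCombination_apply, Finsupp.sum_of_support_subset _ hsub _ (by simp)]
    refine Finset.sum_congr rfl fun r _ => ?_
    rw [Algebra.smul_def, mul_comm]
    congr 1
    exact Module.Basis.ofVectorSpace_apply_self Qbar ℂ r
  · obtain ⟨⟨r, hr'⟩, -, rfl⟩ := Finset.mem_map.mp hr
    have hrel := relPoly_relation d
    ext m
    have hm := congrArg (fun s : LaurentSeries ℂ => b.repr (s.coeff m) ⟨r, hr'⟩) hrel
    simp only [HahnSeries.coeff_zero, map_zero, Finsupp.zero_apply] at hm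
    rw [HahnSeries.coeff_zero]
    refine Eq.trans ?_ hm
    rw [HahnSeries.coeff_sum, HahnSeries.coeff_sum, map_sum, Finsupp.finsetSum_apply]
    refine Finset.sum_congr rfl fun i _ => ?_
    simp only [P, Function.Embedding.coe_subtype, dif_pos hr', map_sum, map_mul, map_pow, aeval_C,
      aeval_X, Finset.sum_mul]
    rw [aeval_eq_sum_range' (Nat.lt_succ_of_le (natDegree_relPoly_le d i)), Finset.sum_mul,
      HahnSeries.coeff_sum, HahnSeries.coeff_sum, map_sum, Finsupp.finsetSum_apply]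
    refine Finset.sum_congr rfl fun k _ => ?_
    rw [← coeffMap_jK, ← coeffMap_jdK, Algebra.smul_def, algebraMap_laurentSeries_eq_single,
      algebraMap_laurentSeries_eq_single, mul_assoc, mul_assoc, HahnSeries.coeff_single_zero_mul,
      HahnSeries.coeff_single_zero_mul, ← map_pow (coeffMap toC), ← map_pow (coeffMap toC),
      ← map_mul (coeffMap toC), coeffMap_coeff,
      mul_comm (b.repr ((relPoly d i).coeff k) ⟨r, hr'⟩), mul_comm ((relPoly d i).coeff k) (toC _)]
    show _ = b.repr (toC _ * _) _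
    rw [show ∀ (z : Qbar) (w : ℂ), toC z * w = z • w from fun z w => (Algebra.smul_def z w).symm,
      map_smul, Finsupp.smul_apply, smul_eq_mul]

/-- **Bound from a parametrisation.**   -/
theorem ord_dvd_of_param (P : Place Qbar (modularFunctionFieldBar M))
    {x : modularFunctionFieldBar M} (hP : 0 < P.ord x) {X₀ : LaurentSeries ℂ} {m : ℕ} (hm : 0 < m)
    (hX₀ : X₀.order = m) (tr : ℕ → Qbar[X] → Qbar[X]) (J : LaurentSeries ℂ)
    (U : modularFunctionFieldBar M) (V : LaurentSeries ℂ) (hV : V ≠ 0)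
    (hF : ∀ n p, p.natDegree ≤ n → aeval x (tr n p) = U ^ n * aeval (jPlace M) p)
    (hC : ∀ n p, p.natDegree ≤ n →
      (tr n p).eval₂ (HahnSeries.C.comp toC) X₀ = V ^ n * p.eval₂ (HahnSeries.C.comp toC) J)
    (hJ : ∀ (d : ℕ) [NeZero d], d ∣ M → relAt d J ≠ 0 ∧ (relAt d J).Splits) :
    P.ord x ∣ m := by
  refine ord_dvd_of_laurent toC P hP hm hX₀ (gens M) (gens_finite M) (adjoin_gens M)
    fun g ⟨d, hne, hd, hg⟩ => ?_
  obtain ⟨S, c, Pd, hdeg, hPd, hrel⟩ := exists_decomposition d
  let n := relDeg d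
  refine ⟨ℂ, S, c, fun r => ∑ i ∈ Finset.range (n + 1), C (tr n (Pd i r)) * X ^ i,
    fun r hr => ?_, ?_⟩
  · simp only [Polynomial.map_sum, Polynomial.map_mul, map_C, Polynomial.map_pow, map_X,
      eval_finsetSum, eval_mul, eval_C, eval_pow, eval_X, AlgHom.toRingHom_eq_coe, RingHom.coe_coe]
    rw [Finset.sum_congr rfl fun i _ => by rw [hF n _ (hdeg i r), mul_assoc], ← Finset.mul_sum,
      mul_eq_zero]
    right
    apply Subtype.ext
    rw [ZeroMemClass.coe_zero, AddSubmonoidClass.coe_finsetSum]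
    refine Eq.trans (Finset.sum_congr rfl fun i _ => ?_) (hrel r hr)
    rw [MulMemClass.coe_mul, SubmonoidClass.coe_pow, hg]
    congr 1
    exact (aeval_algHom_apply (modularFunctionFieldBar M).val (jPlace M) _).symm
  · have hev : ∀ (u : LaurentSeries ℂ) (p : Qbar[X]),
        aeval u (p.map toC) = p.eval₂ (HahnSeries.C.comp toC) u := by
      intro u p
      rw [aeval_def, eval₂_map]
      congr 1
      ext z
      simp [algebraMap_laurentSeries_eq_single, HahnSeries.C_apply]
    have hsum : ∑ r ∈ S, C (HahnSeries.C (c r) : LaurentSeries ℂ) *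
        (∑ i ∈ Finset.range (n + 1), C (tr n (Pd i r)) * X ^ i).map
          (eval₂RingHom (HahnSeries.C.comp toC) X₀) = C (V ^ n) * relAt d J := by
      simp only [Polynomial.map_sum, Polynomial.map_mul, map_C, Polynomial.map_pow, map_X,
        coe_eval₂RingHom, relAt, Finset.mul_sum]
      rw [Finset.sum_comm]
      refine Finset.sum_congr rfl fun i hi => ?_
      rw [hPd i (Nat.lt_succ_iff.mp (Finset.mem_range.mp hi)), map_sum, map_sum, Finset.sum_mul,
        Finset.mul_sum]
      refine Finset.sum_congr rfl fun r _ => ?_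
      rw [hC _ _ (hdeg i r), map_mul (aeval J), aeval_C, hev]
      simp only [map_mul, algebraMap_laurentSeries_eq_single, HahnSeries.C_apply]
      ring
    rw [hsum]
    obtain ⟨h1, h2⟩ := hJ d hd
    exact ⟨mul_ne_zero (C_ne_zero.mpr (pow_ne_zero _ hV)) h1, (Splits.C _).mul h2⟩

open Classical in
/-- The maximal ramification index over `j = a`: `3`, `2`, `1` for `a = 0`, `1728`, otherwise. -/
def ellRam (a : Qbar) : ℕ := if a = 0 then 3 else if a = 1728 then 2 else 1

theorem ellRam_pos (a : Qbar) : 0 < ellRam a := by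
  unfold ellRam; split_ifs <;> norm_num

theorem ellRam_zero : ellRam 0 = 3 := by simp [ellRam]

theorem ellRam_1728 : ellRam 1728 = 2 := by
  simp [ellRam]

theorem ellRam_of_ne {a : Qbar} (h0 : a ≠ 0) (h1 : a ≠ 1728) : ellRam a = 1 := by
  simp [ellRam, h0, h1]

/-- **Ramification over a finite value of `j`.** -/
theorem ord_jPlace_sub_dvd (P : Place Qbar (modularFunctionFieldBar M)) (a : Qbar)
    (hP : 0 < P.ord (jPlace M - algebraMap Qbar (modularFunctionFieldBar M) a)) :
    P.ord (jPlace M - algebraMap Qbar (modularFunctionFieldBar M) a) ∣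
      (ellRam a : ℤ) := by
  obtain ⟨X₀, hord, hsp⟩ := exists_point_param (toC a)
  have h0 : toC a = 0 ↔ a = 0 := map_eq_zero_iff _ toC.injective
  have h1 : toC a = 1728 ↔ a = 1728 := by
    rw [← map_ofNat toC 1728]; exact toC.injective.eq_iff
  have hdeg : (if toC a = 0 then 3 else if toC a = 1728 then 2 else 1 : ℕ) = ellRam a := by
    unfold ellRam
    by_cases ha0 : a = 0
    · rw [if_pos ha0, if_pos (h0.mpr ha0)]
    · rw [if_neg ha0, if_neg (h0.not.mpr ha0)]
      by_cases ha1 : a = 1728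
      · rw [if_pos ha1, if_pos (h1.mpr ha1)]
      · rw [if_neg ha1, if_neg (h1.not.mpr ha1)]
  rw [hdeg] at hord
  refine ord_dvd_of_param M P hP (m := ellRam a)
    (ellRam_pos a) hord (fun _ p => p.comp (X + C a))
    (X₀ + algebraMap ℂ (LaurentSeries ℂ) (toC a)) 1 1 one_ne_zero (fun n p _ => ?_)
    (fun n p _ => ?_) fun d _ _ => hsp d
  · rw [one_pow, one_mul, aeval_comp]
    refine congrArg (fun y => aeval y p) ?_
    rw [aeval_add, aeval_X, aeval_C, sub_add_cancel]
  · rw [one_pow, one_mul, eval₂_comp]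
    congr 1
    simp [algebraMap_laurentSeries_eq_single, HahnSeries.C_apply]

/-- **Ramification at infinity.** -/
theorem ord_inv_jPlace_dvd (P : Place Qbar (modularFunctionFieldBar M))
    (hP : 0 < P.ord (jPlace M)⁻¹) : P.ord (jPlace M)⁻¹ ∣ (M : ℤ) := by
  obtain ⟨X₀, hord, hsp⟩ := exists_cusp_param M
  have hX : X₀ ≠ 0 := fun h => by simp [h] at hord; exact NeZero.ne M (by omega)
  have hj : jPlace M ≠ 0 := fun h => by simp [h] at hP
  refine ord_dvd_of_param M P hP (NeZero.pos M) hord (fun n p => p.reflect n) X₀⁻¹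
    (jPlace M)⁻¹ X₀ hX (fun n p hp => ?_) (fun n p hp => ?_) hsp
  · let := invertibleOfNonzero hj
    have h := eval₂_reflect_mul_pow (algebraMap Qbar (modularFunctionFieldBar M)) (jPlace M) n p hp
    rw [invOf_eq_inv] at h
    rw [aeval_def, aeval_def, ← h, mul_comm _ (jPlace M ^ n), ← mul_assoc, ← mul_pow,
      inv_mul_cancel₀ hj, one_pow, one_mul]
  · let := invertibleOfNonzero (inv_ne_zero hX)
    have h := eval₂_reflect_mul_pow (HahnSeries.C.comp toC) X₀⁻¹ n p hp
    rw [invOf_eq_inv, inv_inv] at h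
    rw [← h, mul_comm _ (X₀⁻¹ ^ n), ← mul_assoc, ← mul_pow, mul_inv_cancel₀ hX, one_pow, one_mul]

theorem ord_jPlace_sub_le (P : Place Qbar (modularFunctionFieldBar M)) (a : Qbar) :
    P.ord (jPlace M - algebraMap Qbar (modularFunctionFieldBar M) a) ≤ (ellRam a : ℤ) := by
  rcases le_or_gt (P.ord (jPlace M - algebraMap Qbar (modularFunctionFieldBar M) a)) 0 with h | h
  · exact h.trans (Int.natCast_nonneg _)
  · exact Int.le_of_dvd (by exact_mod_cast ellRam_pos a) (ord_jPlace_sub_dvd M P a h)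

theorem neg_ord_jPlace_le (P : Place Qbar (modularFunctionFieldBar M)) :
    -P.ord (jPlace M) ≤ M := by
  rcases le_or_gt (-P.ord (jPlace M)) 0 with h | h
  · omega
  · rw [← P.ord_inv] at h ⊢
    exact Int.le_of_dvd (by exact_mod_cast NeZero.pos M) (ord_inv_jPlace_dvd M P h)

end Fermat.Agent.RED.RamBound
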