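import Fermat.Agent.MF.PlaceOrbits.Abstract
import Mathlib.RingTheory.LaurentSeries
import Mathlib.RingTheory.HahnSeries.Valuation
import Mathlib.FieldTheory.IsAlgClosed.Basic
import Mathlib.FieldTheory.IsAlgClosed.AlgebraicClosure
import Mathlib.RingTheory.IntegralClosure.IntegrallyClosed

/-!
# Ramification is bounded by any Laurent parametrisation

If every generator of `F/K` has a polynomial over `K[x]` which splits in `C((w))` once `x` is
replaced by a series of order `m > 0`, then `ord_P x` divides `m` at every zero `P` of `x`.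
-/

set_option autoImplicit false

noncomputable section

open Polynomial WithZero AlgebraicCurve

namespace Fermat.Agent.RED.RamBound

open Fermat.Agent.MF.PlaceOrbits

section Valuation

variable (L : Type*) [Field L]

open Classical in
/-- The valuation `w ↦ exp (-ord w)` of `C((w))`. -/
def serVal : Valuation (LaurentSeries L) ℤᵐ⁰ where
  toFun s := if s = 0 then 0 else exp (-s.order)
  map_zero' := if_pos rfl
  map_one' := by simp
  map_mul' s t := by
    rcases eq_or_ne s 0 with rfl | hs
    · simp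
    rcases eq_or_ne t 0 with rfl | ht
    · simp
    rw [if_neg (mul_ne_zero hs ht), if_neg hs, if_neg ht, HahnSeries.order_mul hs ht, neg_add,
      exp_add]
  map_add_le_max' s t := by
    rcases eq_or_ne s 0 with rfl | hs
    · simp
    rcases eq_or_ne t 0 with rfl | ht
    · simp
    rcases eq_or_ne (s + t) 0 with hst | hst
    · simp [hst]
    have := HahnSeries.min_order_le_order_add hst
    rw [if_neg hs, if_neg ht, if_neg hst, le_max_iff, exp_le_exp, exp_le_exp]
    rcases min_le_iff.mp this with h | h <;> [left; right] <;> omega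

variable {L}

theorem serVal_of_ne {s : LaurentSeries L} (hs : s ≠ 0) : serVal L s = exp (-s.order) :=
  if_neg hs

theorem log_serVal (s : LaurentSeries L) : -log (serVal L s) = s.order := by
  rcases eq_or_ne s 0 with rfl | hs
  · simp
  · rw [serVal_of_ne hs, log_exp, neg_neg]

end Valuation

variable {K F L : Type*} [Field K] [Field F] [Algebra K F] [Field L]

theorem ord_const (v : Place K F) {a : K} (_ : a ≠ 0) : v.ord (algebraMap K F a) = 0 := by
  have h1 := pl_ord_nonneg_of_mem v (v.algebraMap_mem' a)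
  have h2 := pl_ord_nonneg_of_mem v (v.algebraMap_mem' a⁻¹)
  rw [map_inv₀, v.ord_inv] at h2
  omega

theorem order_ringHom_const (κ : K →+* L) {a : K} (ha : a ≠ 0) :
    (HahnSeries.C (κ a) : LaurentSeries L) ≠ 0 ∧
      (HahnSeries.C (κ a) : LaurentSeries L).order = 0 := by
  have h : κ a ≠ 0 := (_root_.map_ne_zero κ).mpr ha
  refine ⟨?_, ?_⟩
  · exact (_root_.map_ne_zero (HahnSeries.C : L →+* LaurentSeries L)).mpr h
  · exact HahnSeries.order_single h

/-- The orders of `p(x)` and `p(X₀)` are the multiples `n · e`, `n · m` of one `n`. -/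
theorem order_eval_poly (κ : K →+* L) {x : F} (P : Place K F) (hP : 0 < P.ord x)
    {X₀ : LaurentSeries L} {m : ℕ} (hm : 0 < m) (hX₀ : X₀.order = m) {p : K[X]} (hp : p ≠ 0) :
    aeval x p ≠ 0 ∧ p.eval₂ (HahnSeries.C.comp κ) X₀ ≠ 0 ∧
      ∃ n : ℕ, P.ord (aeval x p) = n * P.ord x ∧
        (p.eval₂ (HahnSeries.C.comp κ) X₀).order = (n : ℤ) * m := by
  have hx0 : x ≠ 0 := fun h => by simp [h] at hP
  have hX0 : X₀ ≠ 0 := fun h => by simp [h] at hX₀; omega
  obtain ⟨q, hq, hndvd⟩ := p.exists_eq_pow_rootMultiplicity_mul_and_not_dvd hp 0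
  set n := p.rootMultiplicity 0
  rw [map_zero, sub_zero] at hq hndvd
  have hq0 : q.coeff 0 ≠ 0 := fun h => hndvd (X_dvd_iff.mpr h)
  -- at the place
  obtain ⟨r, hr⟩ : ∃ r : K[X], q = C (q.coeff 0) + X * r :=
    ⟨q.divX, by rw [add_comm, mul_comm, q.divX_mul_X_add]⟩
  have hA : aeval x q ≠ 0 ∧ P.ord (aeval x q) = 0 := by
    have hc : algebraMap K F (q.coeff 0) ≠ 0 := (_root_.map_ne_zero _).mpr hq0
    have hrmem : 0 ≤ P.ord (aeval x r) := by
      refine pl_ord_nonneg_of_mem P ?_
      rw [aeval_eq_sum_range]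
      refine sum_mem fun i _ => ?_
      rw [Algebra.smul_def]
      exact mul_mem (P.algebraMap_mem' _) (pow_mem (pl_mem_of_ord_nonneg P hP.le) i)
    rw [hr, map_add, map_mul, aeval_C, aeval_X]
    rcases eq_or_ne (x * aeval x r) 0 with h0 | h0
    · rw [h0, add_zero]
      exact ⟨hc, ord_const P hq0⟩
    have hpos : 0 < P.ord (x * aeval x r) := by
      rw [P.ord_mul hx0 (right_ne_zero_of_mul h0)]
      omega
    set u := (algebraMap K F (q.coeff 0))⁻¹ * (x * aeval x r)
    have hu : u ≠ 0 := mul_ne_zero (inv_ne_zero hc) h0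
    have hordu : P.ord u = P.ord (x * aeval x r) := by
      rw [P.ord_mul (inv_ne_zero hc) h0, P.ord_inv, ord_const P hq0]
      omega
    obtain ⟨h1, h2⟩ := pl_ord_one_add P hu (by omega)
    have heq : algebraMap K F (q.coeff 0) + x * aeval x r =
        algebraMap K F (q.coeff 0) * (1 + u) := by
      simp only [u]
      field_simp
    rw [heq]
    refine ⟨mul_ne_zero hc h1, ?_⟩
    rw [P.ord_mul hc h1, h2, ord_const P hq0]
    omega
  -- in the series
  set φ : K →+* LaurentSeries L := HahnSeries.C.comp κ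
  have hB : q.eval₂ φ X₀ ≠ 0 ∧ (q.eval₂ φ X₀).order = 0 := by
    have hv : serVal L (q.eval₂ φ X₀) = 1 := by
      rw [hr, eval₂_add, eval₂_mul, eval₂_C, eval₂_X]
      have hc : serVal L (φ (q.coeff 0)) = 1 := by
        obtain ⟨h1, h2⟩ := order_ringHom_const κ hq0
        rw [show φ (q.coeff 0) = HahnSeries.C (κ (q.coeff 0)) from rfl, serVal_of_ne h1, h2,
          neg_zero, exp_zero]
      have hX : serVal L X₀ < 1 := by
        rw [serVal_of_ne hX0, hX₀, ← exp_zero, exp_lt_exp]
        omega
      have hrle : serVal L (r.eval₂ φ X₀) ≤ 1 := by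
        rw [eval₂_eq_sum_range]
        refine Valuation.map_sum_le _ fun i _ => ?_
        rw [map_mul, map_pow]
        refine mul_le_one' ?_ (pow_le_one' hX.le i)
        rcases eq_or_ne (r.coeff i) 0 with h | h
        · simp [h]
        · obtain ⟨h1, h2⟩ := order_ringHom_const κ h
          rw [show φ (r.coeff i) = HahnSeries.C (κ (r.coeff i)) from rfl, serVal_of_ne h1, h2,
            neg_zero, exp_zero]
      rw [Valuation.map_add_eq_of_lt_left _ ?_, hc]
      rw [hc, map_mul]
      calc serVal L X₀ * serVal L (r.eval₂ φ X₀) ≤ serVal L X₀ * 1 := mul_le_mul_right hrle _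
        _ = serVal L X₀ := mul_one _
        _ < 1 := hX
    have h0 : q.eval₂ φ X₀ ≠ 0 := fun h => by simp [h] at hv
    exact ⟨h0, by rw [← log_serVal, hv, log_one, neg_zero]⟩
  rw [hq, map_mul, map_pow, aeval_X, eval₂_mul, eval₂_pow, eval₂_X]
  refine ⟨mul_ne_zero (pow_ne_zero _ hx0) hA.1, mul_ne_zero (pow_ne_zero _ hX0) hB.1, n, ?_, ?_⟩
  · rw [P.ord_mul (pow_ne_zero _ hx0) hA.1, pl_ord_pow, hA.2, add_zero]
  · rw [HahnSeries.order_mul (pow_ne_zero _ hX0) hB.1, HahnSeries.order_pow, hX₀, hB.2, add_zero]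
    simp

open IntermediateField in
/-- **The ramification bound.** -/
theorem ord_dvd_of_laurent (κ : K →+* L) {x : F} (P : Place K F) (hP : 0 < P.ord x)
    {X₀ : LaurentSeries L} {m : ℕ} (hm : 0 < m) (hX₀ : X₀.order = m)
    (G : Set F) (hGfin : G.Finite) (hG : IntermediateField.adjoin K G = ⊤)
    (hsplit : ∀ g ∈ G, ∃ (ι₀ : Type) (S : Finset ι₀) (c : ι₀ → L) (Q : ι₀ → K[X][X]),
      (∀ r ∈ S, ((Q r).map (aeval x : K[X] →ₐ[K] F).toRingHom).eval g = 0) ∧
      (∑ r ∈ S, Polynomial.C (HahnSeries.C (c r) : LaurentSeries L) *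
        (Q r).map (eval₂RingHom (HahnSeries.C.comp κ) X₀)) ≠ 0 ∧
      (∑ r ∈ S, Polynomial.C (HahnSeries.C (c r) : LaurentSeries L) *
        (Q r).map (eval₂RingHom (HahnSeries.C.comp κ) X₀)).Splits) :
    P.ord x ∣ m := by
  classical
  set φ : K →+* LaurentSeries L := HahnSeries.C.comp κ
  set ev : K[X] →+* LaurentSeries L := eval₂RingHom φ X₀
  have hev : Function.Injective ev := by
    rw [injective_iff_map_eq_zero]
    intro p hp
    by_contra hp0
    exact (order_eval_poly κ P hP hm hX₀ hp0).2.1 hp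
  have hax : Function.Injective (aeval x : K[X] →ₐ[K] F) := by
    rw [injective_iff_map_eq_zero]
    intro p hp
    by_contra hp0
    exact (order_eval_poly κ P hP hm hX₀ hp0).1 hp
  let : Algebra K[X] F := (aeval x : K[X] →ₐ[K] F).toRingHom.toAlgebra
  have : IsScalarTower K K[X] F := IsScalarTower.of_algebraMap_eq fun a => (aeval_C x a).symm
  have : FaithfulSMul K[X] F := (faithfulSMul_iff_algebraMap_injective _ _).mpr hax
  let R := FractionRing K[X]
  let : Algebra R F := FractionRing.liftAlgebra K[X] F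
  have : IsScalarTower K[X] R F := inferInstance
  let ι : R →+* LaurentSeries L := IsFractionRing.lift hev
  have hιp : ∀ p : K[X], ι (algebraMap K[X] R p) = ev p := IsFractionRing.lift_algebraMap hev
  -- integral elements of `R` stay integral at `P`
  have hRmem : ∀ c : R, serVal L (ι c) ≤ 1 → algebraMap R F c ∈ P.toValuationSubring := by
    intro c hc
    obtain ⟨p, q, hq, rfl⟩ := IsFractionRing.div_surjective K[X] c
    rcases eq_or_ne p 0 with rfl | hp
    · simp
    have hq0 : q ≠ 0 := nonZeroDivisors.ne_zero hq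
    obtain ⟨hp1, hp2, n, hn, hn'⟩ := order_eval_poly κ P hP hm hX₀ hp
    obtain ⟨hq1, hq2, l, hl, hl'⟩ := order_eval_poly κ P hP hm hX₀ hq0
    rw [map_div₀, hιp, hιp] at hc
    rw [map_div₀, ← IsScalarTower.algebraMap_apply, ← IsScalarTower.algebraMap_apply]
    refine pl_mem_of_ord_nonneg P ?_
    show 0 ≤ P.ord (aeval x p / aeval x q)
    rw [div_eq_mul_inv, P.ord_mul hp1 (inv_ne_zero hq1), P.ord_inv, hn, hl]
    rw [map_div₀, serVal_of_ne (s := ev p) hp2, serVal_of_ne (s := ev q) hq2,
      show (ev p).order = (n : ℤ) * m from hn', show (ev q).order = (l : ℤ) * m from hl',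
      div_le_one₀ (zero_lt_iff.2 exp_ne_zero), exp_le_exp, neg_le_neg_iff] at hc
    have hnl : (l : ℤ) ≤ n := le_of_mul_le_mul_right hc (by exact_mod_cast hm)
    have := mul_le_mul_of_nonneg_right hnl hP.le
    omega
  let : Algebra R (LaurentSeries L) := ι.toAlgebra
  let Ω := AlgebraicClosure (LaurentSeries L)
  have hι : ∀ r : R, algebraMap R Ω r = algebraMap (LaurentSeries L) Ω (ι r) :=
    IsScalarTower.algebraMap_apply R (LaurentSeries L) Ω
  -- `F` is finite over `R`
  have hmapR : ∀ (Q : K[X][X]) (g : F), (Q.map (aeval x : K[X] →ₐ[K] F).toRingHom).eval g = 0 →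
      aeval g (Q.map (algebraMap K[X] R)) = 0 := by
    intro Q g hQg
    rw [aeval_map_algebraMap, aeval_def, eval₂_eq_eval_map]
    exact hQg
  have hcomp : ∀ Q : K[X][X], (Q.map (algebraMap K[X] R)).map ι = Q.map ev := fun Q => by
    rw [Polynomial.map_map]; exact congrArg (Q.map ·) (RingHom.ext hιp)
  have hGint : ∀ g ∈ G, IsIntegral R g := fun g hg => by
    obtain ⟨ι₀, S, c, Q, hQg, hne, -⟩ := hsplit g hg
    obtain ⟨r, hr, hQr⟩ : ∃ r ∈ S, (Q r).map ev ≠ 0 := by
      by_contra hall
      push Not at hall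
      exact hne (Finset.sum_eq_zero fun r hr => by rw [hall r hr, mul_zero])
    refine IsAlgebraic.isIntegral ⟨(Q r).map (algebraMap K[X] R), fun h => hQr ?_,
      hmapR _ _ (hQg r hr)⟩
    rw [← hcomp, h, Polynomial.map_zero]
  have htop : IntermediateField.adjoin R G = ⊤ := by
    rw [eq_top_iff]
    intro z _
    have hz : z ∈ IntermediateField.adjoin K G := by rw [hG]; trivial
    induction hz using IntermediateField.adjoin_induction with
    | mem y hy => exact IntermediateField.subset_adjoin R G hy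
    | algebraMap a =>
      rw [IsScalarTower.algebraMap_apply K K[X] F, IsScalarTower.algebraMap_apply K[X] R F]
      exact IntermediateField.algebraMap_mem _ _
    | add y z _ _ hy hz => exact add_mem (hy trivial) (hz trivial)
    | inv y _ hy => exact inv_mem (hy trivial)
    | mul y z _ _ hy hz => exact mul_mem (hy trivial) (hz trivial)
  have : Finite G := hGfin
  have hfd : FiniteDimensional R (IntermediateField.adjoin R G) :=
    IntermediateField.finiteDimensional_adjoin hGint
  have : FiniteDimensional R F := by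
    rw [htop] at hfd
    exact IntermediateField.topEquiv.toLinearEquiv.finiteDimensional
  -- every embedding factors through the Laurent series
  have hfac : ∀ (σ : F →ₐ[R] Ω) (y : F), σ y ∈ (algebraMap (LaurentSeries L) Ω).range := by
    intro σ y
    have hy : y ∈ IntermediateField.adjoin R G := by rw [htop]; trivial
    induction hy using IntermediateField.adjoin_induction with
    | mem g hg =>
      obtain ⟨ι₀, S, c, Q, hQg, hne, hQs⟩ := hsplit g hg
      refine hQs.mem_range_of_isRoot hne ?_
      rw [IsRoot.def, Polynomial.map_sum, eval_finsetSum]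
      refine Finset.sum_eq_zero fun r hr => ?_
      rw [Polynomial.map_mul, eval_mul, mul_eq_zero]
      right
      have h := congrArg σ (hmapR _ _ (hQg r hr))
      rw [map_zero, ← aeval_algHom_apply, aeval_def, eval₂_eq_eval_map] at h
      rw [← hcomp, Polynomial.map_map]
      exact h
    | algebraMap r => exact ⟨ι r, (hι r).symm.trans (σ.commutes r).symm⟩
    | add y z _ _ hy hz => rw [map_add]; exact add_mem hy hz
    | inv y _ hy =>
      obtain ⟨u, hu⟩ := hy
      exact ⟨u⁻¹, by rw [map_inv₀, map_inv₀, hu]⟩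
    | mul y z _ _ hy hz => rw [map_mul]; exact mul_mem hy hz
  choose lift' hlift using hfac
  let ψ : (F →ₐ[R] Ω) → (F →+* LaurentSeries L) := fun σ =>
    { toFun := lift' σ
      map_one' := (algebraMap (LaurentSeries L) Ω).injective (by simp [hlift])
      map_mul' := fun a b => (algebraMap (LaurentSeries L) Ω).injective (by simp [hlift])
      map_zero' := (algebraMap (LaurentSeries L) Ω).injective (by simp [hlift])
      map_add' := fun a b => (algebraMap (LaurentSeries L) Ω).injective (by simp [hlift]) }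
  have hψR : ∀ σ (r : R), ψ σ (algebraMap R F r) = ι r := fun σ r =>
    (algebraMap (LaurentSeries L) Ω).injective (by
      show algebraMap (LaurentSeries L) Ω (lift' σ _) = _
      rw [hlift, σ.commutes, hι])
  let w : (F →ₐ[R] Ω) → Valuation F ℤᵐ⁰ := fun σ => (serVal L).comap (ψ σ)
  have hwx : ∀ σ, w σ x = exp (-(m : ℤ)) := fun σ => by
    have hxR : algebraMap R F (algebraMap K[X] R X) = x := by
      rw [← IsScalarTower.algebraMap_apply]; exact aeval_X x
    have hX : ι (algebraMap K[X] R X) = X₀ := by rw [hιp]; exact eval₂_X _ _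
    show serVal L (ψ σ x) = _
    rw [← hxR, hψR, hX, serVal_of_ne (fun h => by simp [h] at hX₀; omega), hX₀]
  have hwK : ∀ σ, ∀ a : K, a ≠ 0 → w σ (algebraMap K F a) = 1 := fun σ a ha => by
    have haR : algebraMap R F (algebraMap K[X] R (C a)) = algebraMap K F a := by
      rw [← IsScalarTower.algebraMap_apply]; exact aeval_C x a
    obtain ⟨h1, h2⟩ := order_ringHom_const κ ha
    show serVal L (ψ σ _) = _
    rw [← haR, hψR, hιp, show ev (C a) = HahnSeries.C (κ a) from eval₂_C _ _, serVal_of_ne h1,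
      h2, neg_zero, exp_zero]
  have hnt : ∀ σ, ∃ y : F, w σ y ≠ 0 ∧ w σ y ≠ 1 := fun σ =>
    ⟨x, by rw [hwx]; exact exp_ne_zero, by rw [hwx, ← exp_zero, Ne, exp_inj]; omega⟩
  let p : (F →ₐ[R] Ω) → Place K F := fun σ => placeOfVal (w σ) (hwK σ) (hnt σ)
  obtain ⟨σ, rfl⟩ : ∃ σ, p σ = P := by
    by_contra hno
    push Not at hno
    obtain ⟨z, -, hzP, hzS⟩ :=
      pl_exists_separating P (Finset.univ.image p) (by simpa using hno)
    have hzw : ∀ σ, serVal L (ψ σ z) ≤ 1 := fun σ =>
      (mem_placeOfVal (w σ) (hwK σ) (hnt σ)).1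
        (pl_mem_of_ord_nonneg (p σ) (hzS _ (Finset.mem_image_of_mem p (Finset.mem_univ σ))).le)
    have hz : IsIntegral R z := IsIntegral.of_finite R z
    set f := minpoly R z
    have hΩ : (f.map (algebraMap R Ω)).Splits := IsAlgClosed.splits _
    let O := (serVal L).integer
    have hlifts : f.map (algebraMap R Ω) ∈
        Polynomial.lifts ((algebraMap (LaurentSeries L) Ω).comp O.subtype) := by
      rw [hΩ.eq_prod_roots_of_monic ((minpoly.monic hz).map _), lifts_iff_ringHom_rangeS]
      suffices h : _ ∈ (mapRingHom ((algebraMap (LaurentSeries L) Ω).comp O.subtype)).range by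
        obtain ⟨u, hu⟩ := h
        exact ⟨u, hu⟩
      refine multiset_prod_mem _ fun q hq => ?_
      obtain ⟨s, hs, rfl⟩ := Multiset.mem_map.mp hq
      have hs' : s ∈ f.rootSet Ω := by
        rw [mem_rootSet]
        rw [mem_roots', IsRoot.def, eval_map, ← aeval_def] at hs
        exact ⟨minpoly.ne_zero hz, hs.2⟩
      rw [← Algebra.IsAlgebraic.range_eval_eq_rootSet_minpoly Ω z] at hs'
      obtain ⟨τ, rfl⟩ := hs'
      refine sub_mem ⟨X, map_X _⟩ ?_
      show Polynomial.C (τ z) ∈ _
      rw [show τ z = ((algebraMap (LaurentSeries L) Ω).comp O.subtype) ⟨ψ τ z, hzw τ⟩ from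
        (hlift τ z).symm]
      exact ⟨C _, map_C _⟩
    have hcoef : ∀ i, serVal L (ι (f.coeff i)) ≤ 1 := fun i => by
      obtain ⟨⟨u, hu⟩, hu'⟩ := (lifts_iff_coeff_lifts _).mp hlifts i
      rw [coeff_map, hι] at hu'
      have hu'' : u = ι (f.coeff i) := (algebraMap (LaurentSeries L) Ω).injective hu'
      exact hu'' ▸ hu
    have hint : IsIntegral P.toValuationSubring z := by
      have hl : f.map (algebraMap R F) ∈
          Polynomial.lifts (algebraMap P.toValuationSubring F) := by
        rw [lifts_iff_coeff_lifts]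
        intro i
        rw [coeff_map]
        exact ⟨⟨_, hRmem _ (hcoef i)⟩, rfl⟩
      obtain ⟨g, hg, -, hgm⟩ :=
        lifts_and_natDegree_eq_and_monic hl ((minpoly.monic hz).map _)
      refine ⟨g, hgm, ?_⟩
      rw [eval₂_eq_eval_map, hg, eval_map]
      exact minpoly.aeval R z
    obtain ⟨z', hz'⟩ := IsIntegrallyClosed.isIntegral_iff.mp hint
    have := pl_ord_nonneg_of_mem P (hz' ▸ z'.2 : z ∈ P.toValuationSubring)
    omega
  obtain ⟨d, -, hd⟩ := exists_scale_placeOfVal (w σ) (hwK σ) (hnt σ)
  have := hd x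
  rw [hwx, log_exp, neg_neg] at this
  exact ⟨d, by rw [this, mul_comm]⟩

end Fermat.Agent.RED.RamBound
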