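import Fermat.Agent.MF.HolCrit.SymForms
import Fermat.Agent.MF.LevelOneRatio
import Fermat.Agent.MF.Degeneracy
import Mathlib.NumberTheory.ModularForms.CuspFormSubmodule
import Mathlib.Algebra.Polynomial.Splits

/-!
# The complex modular relation between `j` and `j(dτ)`, and its splitting
-/

set_option autoImplicit false

noncomputable section

open UpperHalfPlane ModularForm EisensteinSeries Polynomial CongruenceSubgroup
open scoped MatrixGroups

namespace Fermat.Agent.RED.RamBound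

open Fermat.Agent.MF Fermat.Agent.MF.HolCrit

/-- `E₄³`. -/
def numForm : ModularForm 𝒮ℒ 12 := ModularForm.mcast (by norm_num) (E₄.pow 3)

/-- `Δ`. -/
def denForm : ModularForm 𝒮ℒ 12 := CuspForm.toModularFormₗ CuspForm.discriminant

theorem numForm_apply (τ : ℍ) : numForm τ = E₄ τ ^ 3 := by
  show (E₄.pow 3) τ = _
  rw [ModularForm.coe_pow]; rfl

theorem denForm_apply (τ : ℍ) : denForm τ = ModularForm.discriminant τ := rfl

theorem kleinJ_mul_denForm (τ : ℍ) : kleinJ τ * denForm τ = numForm τ := by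
  rw [numForm_apply, denForm_apply, kleinJ, div_mul_cancel₀ _ (discriminant_ne_zero τ)]

variable (d : ℕ) [NeZero d]

/-- `E₄(dτ)³`. -/
def conjNum : MForm d 12 := levelOneScaled d dvd_rfl numForm

/-- `Δ(dτ)`. -/
def conjDen : MForm d 12 := levelOneScaled d dvd_rfl denForm

theorem conjDen_ne_zero (τ : ℍ) : conjDen d τ ≠ 0 := discriminant_ne_zero (scaleH d τ)

theorem slashQ_conjDen_ne_zero (q : Cosets d) (τ : ℍ) : slashQ (conjDen d) q τ ≠ 0 := by
  obtain ⟨γ, hγ⟩ := exists_slashQ_eq (conjDen d) q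
  rw [hγ, ModularForm.SL_slash_apply]
  exact mul_ne_zero (conjDen_ne_zero d _) (zpow_ne_zero _ (denom_ne_zero _ _))

/-- The degree of the relation. -/
abbrev relDeg : ℕ := Fintype.card (Cosets d)

theorem exists_relPoly (i : ℕ) :
    ∃ P : ℂ[X], P.natDegree ≤ relDeg d ∧ ∀ τ, symFun (conjNum d) (conjDen d) i τ =
      P.eval (kleinJ τ) * ModularForm.discriminant τ ^ relDeg d :=
  exists_poly_mul_discriminant_pow (relDeg d) rfl (symForm (conjNum d) (conjDen d) i)

/-- The coefficient of `Y ^ i` of the relation. -/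
def relPoly (i : ℕ) : ℂ[X] := (exists_relPoly d i).choose

theorem natDegree_relPoly_le (i : ℕ) : (relPoly d i).natDegree ≤ relDeg d :=
  (exists_relPoly d i).choose_spec.1

theorem symFun_eq_relPoly (i : ℕ) (τ : ℍ) : symFun (conjNum d) (conjDen d) i τ =
    (relPoly d i).eval (kleinJ τ) * ModularForm.discriminant τ ^ relDeg d :=
  (exists_relPoly d i).choose_spec.2 τ

section Hom

variable {Λ : Type*} [Field Λ] [Algebra ℂ Λ] {S : Subalgebra ℂ (ℍ → ℂ)} (Φ : S →ₐ[ℂ] Λ)
  (hnum : (numForm : ℍ → ℂ) ∈ S) (hden : (denForm : ℍ → ℂ) ∈ S)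
  (hden0 : Φ ⟨_, hden⟩ ≠ 0)

include hden0 in
theorem hom_eq_aeval {n : ℕ} {P : ℂ[X]} (hP : P.natDegree ≤ n) (F : S)
    (hF : ∀ τ, (F : ℍ → ℂ) τ = P.eval (kleinJ τ) * ModularForm.discriminant τ ^ n) :
    Φ F = aeval (Φ ⟨_, hnum⟩ / Φ ⟨_, hden⟩) P * Φ ⟨_, hden⟩ ^ n := by
  set e : S := ⟨_, hnum⟩
  set δ : S := ⟨_, hden⟩
  have h : F = ∑ k ∈ Finset.range (n + 1),
      algebraMap ℂ S (P.coeff k) * (e ^ k * δ ^ (n - k)) := by
    refine Subtype.ext (funext fun τ => ?_)
    rw [hF, AddSubmonoidClass.coe_finsetSum, Finset.sum_apply,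
      eval_eq_sum_range' (Nat.lt_succ_of_le hP), Finset.sum_mul]
    refine Finset.sum_congr rfl fun k hk => ?_
    have hkn : k ≤ n := Nat.lt_succ_iff.mp (Finset.mem_range.mp hk)
    show _ = P.coeff k * (numForm τ ^ k * denForm τ ^ (n - k))
    rw [← kleinJ_mul_denForm, mul_pow, mul_assoc (kleinJ τ ^ k), ← pow_add,
      Nat.add_sub_cancel' hkn, denForm_apply, mul_assoc]
  rw [h, map_sum, aeval_eq_sum_range' (Nat.lt_succ_of_le hP), Finset.sum_mul]
  refine Finset.sum_congr rfl fun k hk => ?_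
  have hkn : k ≤ n := Nat.lt_succ_iff.mp (Finset.mem_range.mp hk)
  rw [map_mul, AlgHom.commutes, map_mul, map_pow, map_pow, Algebra.smul_def, div_pow, mul_assoc]
  congr 1
  field_simp
  rw [mul_assoc, ← pow_add, Nat.sub_add_cancel hkn]

/-- The relation, with `j` replaced by a value. -/
def relAt (J : Λ) : Λ[X] :=
  ∑ i ∈ Finset.range (relDeg d + 1), C (aeval J (relPoly d i)) * X ^ i

include hden0 in
/-- **Splitting**: wherever all conjugate forms are defined the relation splits. -/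
theorem relAt_ne_zero_and_splits (hf : ∀ q, slashQ (conjNum d) q ∈ S)
    (hg : ∀ q, slashQ (conjDen d) q ∈ S) (hg0 : ∀ q, Φ ⟨_, hg q⟩ ≠ 0) :
    relAt d (Φ ⟨_, hnum⟩ / Φ ⟨_, hden⟩) ≠ 0 ∧
      (relAt d (Φ ⟨_, hnum⟩ / Φ ⟨_, hden⟩)).Splits := by
  set J := Φ ⟨_, hnum⟩ / Φ ⟨_, hden⟩
  set δ : S := ⟨_, hden⟩
  let a : Cosets d → S := fun q => ⟨_, hg q⟩
  let b : Cosets d → S := fun q => ⟨_, hf q⟩
  let p : S[X] := linProd a b Finset.univ
  have hcoef : ∀ (i : ℕ) (τ : ℍ), ((p.coeff i : S) : ℍ → ℂ) τ =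
      symFun (conjNum d) (conjDen d) i τ := by
    intro i τ
    let evτ : S →+* ℂ := (Pi.evalRingHom (fun _ : ℍ => ℂ) τ).comp S.val.toRingHom
    show evτ (p.coeff i) = _
    rw [← coeff_map, symFun]
    congr 1
    simp only [p, linProd, Polynomial.map_prod, Polynomial.map_sub, Polynomial.map_mul, map_C,
      map_X]
    rfl
  have hpdeg : p.natDegree ≤ relDeg d := natDegree_linProd_le a b Finset.univ
  have key : p.map Φ.toRingHom = C (Φ δ ^ relDeg d) * relAt d J := by
    ext i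
    rw [coeff_map, coeff_C_mul, relAt, finsetSum_coeff]
    simp only [coeff_C_mul_X_pow, Finset.sum_ite_eq, Finset.mem_range]
    split_ifs with hi
    · show Φ (p.coeff i) = _
      rw [hom_eq_aeval Φ hnum hden hden0 (natDegree_relPoly_le d i) (p.coeff i)
        (fun τ => by rw [hcoef, symFun_eq_relPoly]), mul_comm]
    · rw [coeff_eq_zero_of_natDegree_lt (by omega), map_zero, mul_zero]
  have hprod : p.map Φ.toRingHom = ∏ q : Cosets d, (C (Φ (a q)) * X - C (Φ (b q))) := by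
    simp only [p, linProd, Polynomial.map_prod, Polynomial.map_sub, Polynomial.map_mul, map_C,
      map_X]
    rfl
  have hne : p.map Φ.toRingHom ≠ 0 := by
    rw [hprod, Finset.prod_ne_zero_iff]
    intro q _ h
    have := congrArg (fun r : Λ[X] => r.coeff 1) h
    simp [a, hg0 q] at this
  have hrel : relAt d J = C ((Φ δ ^ relDeg d)⁻¹) * p.map Φ.toRingHom := by
    rw [key, ← mul_assoc, ← map_mul, inv_mul_cancel₀ (pow_ne_zero _ hden0), map_one, one_mul]
  refine ⟨fun h => hne (by rw [key, h, mul_zero]), ?_⟩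
  rw [hrel, hprod]
  refine (Splits.C _).mul (Splits.prod fun q _ => Splits.of_natDegree_le_one ?_)
  compute_degree

end Hom

/-- The relation vanishes on the expansions of `j` and `j(dτ)`. -/
theorem relPoly_relation :
    ∑ i ∈ Finset.range (relDeg d + 1), aeval jC (relPoly d i) * jdC d ^ i = 0 := by
  have hS : ∀ i, (symForm (conjNum d) (conjDen d) i : ℍ → ℂ) ∈ qFunctions := fun i =>
    coe_levelOne_mem_qFunctions _
  let e : qFunctions := ⟨_, coe_levelOne_mem_qFunctions numForm⟩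
  let δ : qFunctions := ⟨_, coe_levelOne_mem_qFunctions denForm⟩
  let f : qFunctions := ⟨_, coe_mem_qFunctions (conjNum d)⟩
  let g : qFunctions := ⟨_, coe_mem_qFunctions (conjDen d)⟩
  have hsum : ∑ i ∈ Finset.range (relDeg d + 1),
      (⟨_, hS i⟩ : qFunctions) * f ^ i * g ^ (relDeg d - i) = 0 := by
    refine Subtype.ext (funext fun τ => ?_)
    rw [AddSubmonoidClass.coe_finsetSum, Finset.sum_apply]
    exact (mul_eq_zero.mp (symFun_relation (conjNum d) (conjDen d) τ)).resolve_left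
      (conjDen_ne_zero d τ)
  have h := congrArg qLHom hsum
  have hδ : qLHom δ = qL ModularForm.discriminant := rfl
  have he : qLHom e = qL ((⇑E₄) ^ 3) := congrArg qL (funext numForm_apply)
  have hj : qLHom e / qLHom δ = jC := by rw [he, hδ]; exact jqModC_eq_div.symm
  have hfg : jdC d = qLHom f / qLHom g := by
    rw [jdC_eq_div d]
    exact congrArg₂ (· / ·) (congrArg qL (funext fun τ => (numForm_apply _).symm)) rfl
  have hg0 : qLHom g ≠ 0 := fun h0 => conjDen_ne_zero d UpperHalfPlane.I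
    (congrFun ((qL_eq_zero_iff g.2).mp h0) _)
  have hδ0 : qLHom δ ≠ 0 := hδ ▸ qL_discriminant_ne_zero
  simp only [map_sum, map_mul, map_pow, map_zero] at h
  refine (mul_left_inj' (mul_ne_zero (pow_ne_zero (relDeg d) hδ0) (pow_ne_zero (relDeg d) hg0))).mp
    ?_
  rw [zero_mul, Finset.sum_mul]
  refine Eq.trans (Finset.sum_congr rfl fun i hi => ?_) h
  have hi' : i ≤ relDeg d := Nat.lt_succ_iff.mp (Finset.mem_range.mp hi)
  rw [hom_eq_aeval qLHom e.2 δ.2 hδ0 (natDegree_relPoly_le d i) ⟨_, hS i⟩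
    (fun τ => symFun_eq_relPoly d i τ)]
  show _ = aeval (qLHom e / qLHom δ) _ * qLHom δ ^ relDeg d * _ * _
  rw [hj, hfg, div_pow]
  field_simp
  rw [mul_assoc _ (qLHom g ^ i), ← pow_add, Nat.add_sub_cancel' hi']

end Fermat.Agent.RED.RamBound
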